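import Mathlib
import Fermat.Agent.LT.T6.H189.ArchIntSpec
import Fermat.Agent.LT.T1.H849.Unimod

/-!
# Row LT, tower T6, sub-leaf T6.23.01 `RightInvRC` (helper972): `GL₂(ℝ)` is unimodular

OFF-MAIN.  On `LT/T6/H189/ArchIntSpec.lean` (helper189@45580d1ec, sha256 4ac6c090) and the asset
`LT/T1/H849/Unimod.lean` of helper849 (Mathlib only), byte-identical copies.

`rightInvRC972 : H189.RightInvRC` VERBATIM: every Haar measure of `GL (Fin 2) ℝ` (Borel) is right
invariant and inversion invariant.

Proof.  The modular character of `GL₂(ℝ)` is a homomorphism to `ℝ≥0`, trivial on the centre, hence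
trivial (`modularCharacter_GL2_eq_one849`: Gauss elimination over a ring of stable range one).
`GL₂(ℝ)` is locally compact (open in the matrices) and second countable, so every Haar measure is
regular and `map_mul_right_eq_self_of_regular849` applies.  Inversion: `map inv μ` is a left Haar
measure, `= c • μ`, and `c * c = 1` because inversion is an involution.  (Same argument as
`map_inv_eq_self_of_rightInv286` of helper286, re-proved here over Mathlib.)
-/

set_option autoImplicit false
set_option linter.style.haveILetI false

open MeasureTheory MeasureTheory.Measure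
open scoped NNReal ENNReal

noncomputable section

namespace Fermat.Agent.LT.T6.H972

section Abstract

variable {G : Type*} [Group G] [TopologicalSpace G] [IsTopologicalGroup G]
  [MeasurableSpace G] [BorelSpace G] [LocallyCompactSpace G] [SecondCountableTopology G]

/-- In a locally compact second countable group, a Haar measure which is also right invariant
is invariant under inversion. -/
theorem map_inv_eq_self_of_rightInv972 (μ : Measure G) [IsHaarMeasure μ]
    [IsMulRightInvariant μ] : map Inv.inv μ = μ := by
  have : IsHaarMeasure μ.inv :=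
    { toIsFiniteMeasureOnCompacts := inferInstance
      toIsMulLeftInvariant := inferInstance
      toIsOpenPosMeasure := inferInstance }
  let c : ℝ≥0 := haarScalarFactor μ.inv μ
  have hc : μ.inv = c • μ := isMulLeftInvariant_eq_smul μ.inv μ
  have h2 : map Inv.inv (map Inv.inv μ) = (c * c) • μ := by
    rw [← inv_def μ, hc, Measure.map_smul, ← inv_def μ, hc, smul_smul]
  have μeq : μ = (c * c) • μ := by
    rw [map_map continuous_inv.measurable continuous_inv.measurable] at h2
    simpa only [inv_involutive, Function.Involutive.comp_self, Measure.map_id] using h2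
  have Kc : TopologicalSpace.PositiveCompacts G := Classical.arbitrary _
  have h3 : ((c * c : ℝ≥0) : ℝ≥0∞) * μ Kc = 1 * μ Kc := by
    conv_rhs => rw [μeq]
    simp [Measure.smul_apply, ENNReal.smul_def]
  have h4 : ((c * c : ℝ≥0) : ℝ≥0∞) = 1 :=
    (ENNReal.mul_left_inj (measure_pos_of_nonempty_interior _ Kc.interior_nonempty).ne'
      Kc.isCompact.measure_lt_top.ne).1 h3
  have h5 : c * c = 1 := by exact_mod_cast h4
  have h6 : c = 1 := Fermat.Agent.LT.T1.H849.nnreal_no_two_torsion849 c h5
  rw [← inv_def μ, hc, h6, one_smul]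

end Abstract

/-- `GL₂(ℝ)` is locally compact. -/
theorem locallyCompactSpace_GL2R972 : LocallyCompactSpace (GL (Fin 2) ℝ) := by
  have : LocallyCompactSpace (Matrix (Fin 2) (Fin 2) ℝ) :=
    inferInstanceAs (LocallyCompactSpace (Fin 2 → Fin 2 → ℝ))
  have : T2Space (Matrix (Fin 2) (Fin 2) ℝ) := inferInstanceAs (T2Space (Fin 2 → Fin 2 → ℝ))
  infer_instance

/-- `GL₂(ℝ)` is second countable. -/
theorem secondCountable_GL2R972 : SecondCountableTopology (GL (Fin 2) ℝ) := by
  have : SecondCountableTopology (Matrix (Fin 2) (Fin 2) ℝ) :=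
    inferInstanceAs (SecondCountableTopology (Fin 2 → Fin 2 → ℝ))
  have : SecondCountableTopology (Matrix (Fin 2) (Fin 2) ℝ)ᵐᵒᵖ :=
    (MulOpposite.opHomeomorph (M := Matrix (Fin 2) (Fin 2) ℝ)).symm.secondCountableTopology
  exact Units.isEmbedding_embedProduct.secondCountableTopology

/-- The modular character of `GL₂(ℝ)` is trivial. -/
theorem modularCharacter_GL2R972 (g : GL (Fin 2) ℝ) :
    haveI := locallyCompactSpace_GL2R972
    modularCharacter g = 1 := by
  haveI := locallyCompactSpace_GL2R972
  exact Fermat.Agent.LT.T1.H849.modularCharacter_GL2_eq_one849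
    (Fermat.Agent.LT.T1.H849.stableRangeOne_field849 ℝ) g

/-- **T6.23.01 `RightInvRC`**, verbatim: `GL₂(ℝ)` is unimodular. -/
theorem rightInvRC972 : Fermat.Agent.LT.T6.H189.RightInvRC := by
  intro μ hμ
  letI : MeasurableSpace (GL (Fin 2) ℝ) := borel _
  haveI : BorelSpace (GL (Fin 2) ℝ) := ⟨rfl⟩
  haveI := locallyCompactSpace_GL2R972
  haveI := secondCountable_GL2R972
  haveI : IsHaarMeasure μ := hμ
  haveI : Regular μ := inferInstance
  have hr : ∀ g : GL (Fin 2) ℝ, map (fun x => x * g) μ = μ := fun g =>
    Fermat.Agent.LT.T1.H849.map_mul_right_eq_self_of_regular849 modularCharacter_GL2R972 μ g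
  haveI : IsMulRightInvariant μ := ⟨hr⟩
  exact ⟨hr, map_inv_eq_self_of_rightInv972 μ⟩

end Fermat.Agent.LT.T6.H972

end
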